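import Fermat.Agent.S56.GW.EC.GB.Plus
import Fermat.Agent.S56.GW.LEC.Deg
import Fermat.Agent.S56.GW.Dual.D5.Closed

/-!
# S56, node [GW-EC], cell [EC-GB]: (B) and (B⁺) with the closed seams plugged in
(prefix `s56egb_`)

* `s56egb_deg : s56egb_Deg_stmt` (helper14's degree cell `s56ldg_main`);
* `s56egb_B_closed : s56gw_LEC_stmt → s56egb_L2_stmt → s56eg_B_stmt`;
* `s56egb_Bplus_closed : s56gw_LEC_stmt → s56egb_L2_stmt → s56eg_Bplus_stmt`
  (the seam [GW-DUAL] is closed: `s56gdg_dual`).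
-/

set_option autoImplicit false

namespace Fermat.Agent.S56

/-- The arithmetic input (Deg). -/
theorem s56egb_deg : s56egb_Deg_stmt :=
  fun p _ q => s56ldg_main q p (Fact.out : p.Prime).pos

/-- **[EC-GB] (B)** from the local seams only. -/
theorem s56egb_B_closed (hLEC : s56gw_LEC_stmt) (hL2 : s56egb_L2_stmt) : s56eg_B_stmt :=
  s56egb_B_main s56gdg_dual hLEC hL2

/-- **[EC-GB] (B⁺)** from the local seams only. -/
theorem s56egb_Bplus_closed (hLEC : s56gw_LEC_stmt) (hL2 : s56egb_L2_stmt) :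
    s56eg_Bplus_stmt :=
  s56egb_Bplus_main s56gdg_dual hLEC hL2 s56egb_deg

end Fermat.Agent.S56
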