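import Fermat.Agent.S56.GW.Seams
import Fermat.Agent.JT3.Algebra.CycloAdic

/-!
# S56, node [GW-EC], cell [EC-GB]: the archimedean identity (prefix `s56egb_`)

For `p` odd and a finite-dimensional `M`: `h⁰(G_∞, M) + h⁰(G_∞, M') = dim M`
(`s56egb_arch`), because complex conjugation `c` has `cycloChar p c = -1`
(`s56egb_cycloChar_conj`), so the `c`-invariants of `M' = M^*(1)` are the functionals killing
the `c`-invariants of `M`.
-/

set_option autoImplicit false
set_option linter.unusedSectionVars false

open CategoryTheory Module groupCohomology ExtCitation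

namespace Fermat.Agent.S56

local notation "GQ" => (AlgebraicClosure ℚ ≃ₐ[ℚ] AlgebraicClosure ℚ)

variable {p : ℕ} [Fact p.Prime]

/-- The cyclotomic character of complex conjugation is `-1`. -/
theorem s56egb_cycloChar_conj : ((cycloChar p complexConjugation : (ZMod p)ˣ) : ZMod p) = -1 := by
  have hp : p.Prime := Fact.out
  have : NeZero p := ⟨hp.ne_zero⟩
  symm
  refine modularCyclotomicCharacter.unique (AlgebraicClosure ℚ) (card_rootsOfUnity_eq_self p)
    ((complexConjugation : GQ) : AlgebraicClosure ℚ ≃+* AlgebraicClosure ℚ) ?_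
  intro t ht
  have ht1 : ((t : (AlgebraicClosure ℚ)ˣ) : AlgebraicClosure ℚ) ^ p = 1 := by
    have := (mem_rootsOfUnity p t).1 ht
    rw [← Units.val_pow_eq_pow_val, this, Units.val_one]
  have h1 : (complexConjugation : GQ) (t : AlgebraicClosure ℚ) = (t : AlgebraicClosure ℚ)⁻¹ :=
    Fermat.Agent.JT3.cya_complexConjugation_rootsOfUnity hp.ne_zero ht1
  have hval : ((-1 : ZMod p)).val = p - 1 := by
    have : Fact (1 < p) := ⟨hp.one_lt⟩
    rw [ZMod.neg_val, if_neg one_ne_zero, ZMod.val_one]
  show (complexConjugation : GQ) (t : AlgebraicClosure ℚ) = _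
  rw [h1, hval]
  apply inv_eq_of_mul_eq_one_right
  rw [← Units.val_pow_eq_pow_val, ← Units.val_mul, ← pow_succ', Nat.sub_add_cancel hp.one_le,
    (mem_rootsOfUnity p t).1 ht, Units.val_one]

section linalg

variable {k V : Type*} [Field k] [AddCommGroup V] [Module k V] [FiniteDimensional k V]

/-- For an involution `C` of a finite-dimensional space (`2 ≠ 0`): the functionals `f` with
`-(f ∘ C) = f` are those killing the fixed space of `C`, so the dimensions add up. -/
theorem s56egb_involution (h2 : (2 : k) ≠ 0) (C : V →ₗ[k] V) (hC : ∀ v, C (C v) = v)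
    (W : Submodule k V) (hW : ∀ v, v ∈ W ↔ C v = v)
    (W' : Submodule k (Module.Dual k V)) (hW' : ∀ f, f ∈ W' ↔ -(f ∘ₗ C) = f) :
    finrank k W + finrank k W' = finrank k V := by
  have e : W' = W.dualAnnihilator := by
    ext f
    rw [hW', Submodule.mem_dualAnnihilator]
    constructor
    · intro hf w hw
      have h1 : f w = -(f (C w)) := by
        conv_lhs => rw [← hf]
        rfl
      rw [(hW w).1 hw] at h1
      have h3 : (2 : k) * f w = 0 := by
        rw [two_mul]
        nth_rewrite 1 [h1]
        exact neg_add_cancel _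
      rcases mul_eq_zero.1 h3 with h | h
      · exact absurd h h2
      · exact h
    · intro hf
      refine LinearMap.ext fun v => ?_
      have hmem : v + C v ∈ W := by
        rw [hW, map_add, hC, add_comm]
      have := hf _ hmem
      rw [map_add] at this
      show -(f (C v)) = f v
      rw [neg_eq_iff_add_eq_zero, add_comm]
      exact this
  rw [e]
  exact Subspace.finrank_add_finrank_dualAnnihilator_eq W

end linalg

/-- **The archimedean identity**: `h⁰(G_∞, M) + h⁰(G_∞, M') = dim M` for `p` odd. -/
theorem s56egb_arch (hp2 : p ≠ 2) (M : Rep.{0} (ZMod p) GQ) [FiniteDimensional (ZMod p) M] :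
    finrank (ZMod p) (s56gw_resInf M).ρ.invariants
        + finrank (ZMod p) (s56gw_resInf (s56gw_dual M)).ρ.invariants
      = finrank (ZMod p) M := by
  have hp : p.Prime := Fact.out
  have h2 : (2 : ZMod p) ≠ 0 := by
    intro h
    have h3 : ((2 : ℕ) : ZMod p) = 0 := by exact_mod_cast h
    rw [ZMod.natCast_eq_zero_iff] at h3
    exact hp2 ((Nat.prime_dvd_prime_iff_eq hp Nat.prime_two).1 h3)
  have hcc : (complexConjugation : GQ) * complexConjugation = 1 := complexConjugation_mul_self
  have hC : ∀ v : M.V, M.ρ complexConjugation (M.ρ complexConjugation v) = v := by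
    intro v
    have : (M.ρ complexConjugation * M.ρ complexConjugation) v = v := by
      rw [← map_mul, hcc, map_one]; rfl
    exact this
  -- invariants under the archimedean decomposition group = fixed points of `c`
  have hinv : ∀ (N : Rep.{0} (ZMod p) GQ) (v : N.V),
      v ∈ (s56gw_resInf N).ρ.invariants ↔ N.ρ complexConjugation v = v := by
    intro N v
    constructor
    · intro h
      exact h archimedeanGen
    · intro h g
      obtain ⟨g, hg⟩ := g
      obtain ⟨n, rfl⟩ := Subgroup.mem_zpowers_iff.1 hg
      show N.ρ (complexConjugation ^ n) v = v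
      have hfix : ∀ m : ℕ, N.ρ (complexConjugation ^ m) v = v := by
        intro m
        induction m with
        | zero => rw [pow_zero, map_one]; rfl
        | succ m ih =>
          rw [pow_succ, map_mul]
          show N.ρ (complexConjugation ^ m) (N.ρ complexConjugation v) = v
          rw [h, ih]
      rcases Int.eq_nat_or_neg n with ⟨m, rfl | rfl⟩
      · rw [zpow_natCast]; exact hfix m
      · rw [zpow_neg, zpow_natCast]
        have h4 := hfix m
        have h5 : N.ρ (complexConjugation ^ m)⁻¹ (N.ρ (complexConjugation ^ m) v) = v := by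
          have : (N.ρ (complexConjugation ^ m)⁻¹ * N.ρ (complexConjugation ^ m)) v = v := by
            rw [← map_mul, inv_mul_cancel, map_one]; rfl
          exact this
        rw [h4] at h5
        exact h5
  refine s56egb_involution h2 (M.ρ complexConjugation) hC _ (hinv M) _ ?_
  intro f
  rw [hinv (s56gw_dual M) f, Rep.dualTwist_ρ_apply, s56egb_cycloChar_conj, complexConjugation_inv]
  have key : ∀ g : Module.Dual (ZMod p) M.V, ((-1 : ZMod p) • g) = -g := fun g => by
    refine LinearMap.ext fun v => ?_
    rw [LinearMap.smul_apply, LinearMap.neg_apply, smul_eq_mul, neg_one_mul]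
  exact Eq.congr_left (key _)

end Fermat.Agent.S56
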