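import Fermat.Agent.S56.GW.Asm.Final
import Fermat.Agent.S56.GW.H2.Main
import Fermat.Agent.S56.GW.Dual.D3.Count

/-!
# S56, node [GW-EC], cell [EC-GB], part (B) (prefix `s56egb_`)

With `f(M) := h¹_S(M) − h⁰(M) − h²_S(M) − dim M + h⁰_∞(M)` and `s(M) := f(M) + f(M')`
(`M' = s56gw_dual M`), statement (B) of the plan is `s(M) ≥ −h⁰(M) − h⁰(M')`.  Since
`h⁰_∞(M) + h⁰_∞(M') = dim M` (`GB/Arch.lean`), it is equivalent to the subtraction-free form

`h²_S(M) + h²_S(M') + dim M ≤ h¹_S(M) + h¹_S(M')`     (`s56egb_B`),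

proved here from the seams `s56gw_Dual_stmt` (reciprocity + middle exactness + right
non-degeneracy), `s56gw_LEC_stmt`, the NEW local seam `s56egb_L2_stmt`
(`h²_q(M') ≤ h⁰_q(M)`), the landed weak `H²`-bound `s56gwh_main` and S55 (for `M` and `M'`).
-/

set_option autoImplicit false
set_option linter.unusedSectionVars false

open CategoryTheory Module groupCohomology ExtCitation

namespace Fermat.Agent.S56

local notation "GQ" => (AlgebraicClosure ℚ ≃ₐ[ℚ] AlgebraicClosure ℚ)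

/-- **NEW LOCAL SEAM (L2≤)**: `h²(G_q, M') ≤ h⁰(G_q, M)`. -/
def s56egb_L2_stmt : Prop :=
  ∀ (p : ℕ) [Fact p.Prime], p ≠ 2 →
  ∀ (M : Rep.{0} (ZMod p) GQ) [FiniteDimensional (ZMod p) M], s56gw_Smooth M →
  ∀ q : Nat.Primes,
    finrank (ZMod p) (continuousH2 (primeLocalToGlobal q) (s56gw_res (s56gw_dual M) q))
      ≤ finrank (ZMod p) (s56gw_res M q).ρ.invariants

section coeff

variable {p : ℕ} [Fact p.Prime] {A B : Rep.{0} (ZMod p) GQ} (ψ : A ⟶ B)

/-- A morphism of coefficients maps continuous classes unramified outside `S` to such classes. -/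
theorem s56egb_coeff_memS (S : Finset Nat.Primes) (x : H1 A) (hx : x ∈ continuousH1S S A) :
    (map (MonoidHom.id GQ) ψ 1).hom x ∈ continuousH1S S B := by
  obtain ⟨c, hc, rfl⟩ := (mem_continuousH1S_iff S A x).1 hx
  rw [s56gdlc_coeff_mk]
  refine (mem_continuousH1S_iff S B _).2 ⟨_, ?_, rfl⟩
  rw [s56gdlc_coeff_coe]
  exact hc.comp _

/-- Localisation commutes with morphisms of coefficients. -/
theorem s56egb_coeff_loc {H : Type} [Group H] (r : H →* GQ) (x : H1 A) :
    (map r (𝟙 (Rep.res r B)) 1).hom ((map (MonoidHom.id GQ) ψ 1).hom x)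
      = (map (MonoidHom.id H) ((Rep.resFunctor r).map ψ) 1).hom
          ((map r (𝟙 (Rep.res r A)) 1).hom x) := by
  induction x using H1_induction_on with | @h c =>
  rw [H1π_comp_map_apply, H1π_comp_map_apply, H1π_comp_map_apply, H1π_comp_map_apply]
  rfl

/-- A morphism of coefficients maps `Ш¹` to `Ш¹`. -/
theorem s56egb_coeff_sha (hp2 : p ≠ 2) (S : Finset Nat.Primes) (x : H1 A) (hx : x ∈ sha₁ S A) :
    (map (MonoidHom.id GQ) ψ 1).hom x ∈ sha₁ S B := by
  obtain ⟨h1, h2⟩ := (Fermat.Agent.S55.tl_mem_sha₁_iff hp2 S A x).1 hx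
  refine (Fermat.Agent.S55.tl_mem_sha₁_iff hp2 S B _).2 ⟨s56egb_coeff_memS ψ S x h1, fun q => ?_⟩
  have := s56egb_coeff_loc ψ (primeLocalToGlobal q.1) x
  have h3 : (map (primeLocalToGlobal q.1) (𝟙 (Rep.res (primeLocalToGlobal q.1) A)) 1).hom x = 0 :=
    h2 q
  rw [h3, map_zero] at this
  exact this

/-- Isomorphic coefficients: `dim Ш¹(B) ≤ dim Ш¹(A)`. -/
theorem s56egb_sha1_le (hp2 : p ≠ 2) (S : Finset Nat.Primes) (e : A ≅ B)
    [FiniteDimensional (ZMod p) (sha₁ S A)] :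
    FiniteDimensional (ZMod p) (sha₁ S B) ∧
      finrank (ZMod p) (sha₁ S B) ≤ finrank (ZMod p) (sha₁ S A) := by
  let g : ↥(sha₁ S B) →ₗ[ZMod p] ↥(sha₁ S A) :=
    ((map (MonoidHom.id GQ) e.inv 1).hom.domRestrict (sha₁ S B)).codRestrict (sha₁ S A)
      (fun x => s56egb_coeff_sha e.inv hp2 S x.1 x.2)
  have hg : Function.Injective g := by
    intro x y hxy
    have h1 := congrArg Subtype.val hxy
    exact Subtype.ext (s56gdlc_coeff_inj e.symm h1)
  exact ⟨FiniteDimensional.of_injective g hg, LinearMap.finrank_le_finrank_of_injective hg⟩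

end coeff

/-- **[EC-GB] (B)**, subtraction-free form:
`h²_S(M) + h²_S(M') + dim M ≤ h¹_S(M) + h¹_S(M')`. -/
theorem s56egb_B (hDual : s56gw_Dual_stmt) (hLEC : s56gw_LEC_stmt) (hL2 : s56egb_L2_stmt)
    (p : ℕ) [Fact p.Prime] (hp2 : p ≠ 2) (S : Finset Nat.Primes) (hpS : pPrime p ∈ S)
    (M : Rep.{0} (ZMod p) GQ) [FiniteDimensional (ZMod p) M]
    (hsm : s56gw_Smooth M) (hur : s56gw_UnrOut S M)
    [FiniteDimensional (ZMod p) (continuousH1S S M)]
    [FiniteDimensional (ZMod p) (continuousH1S S (s56gw_dual M))]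
    [FiniteDimensional (ZMod p) (continuousH2S S M)]
    [FiniteDimensional (ZMod p) (continuousH2S S (s56gw_dual M))] :
    finrank (ZMod p) (continuousH2S S M) + finrank (ZMod p) (continuousH2S S (s56gw_dual M))
        + finrank (ZMod p) M
      ≤ finrank (ZMod p) (continuousH1S S M)
        + finrank (ZMod p) (continuousH1S S (s56gw_dual M)) := by
  obtain ⟨DS⟩ := hDual p hp2 M hsm
  have hsm' : s56gw_Smooth (s56gw_dual M) := Fermat.Agent.S55.tl_dualTwist_smooth M hsm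
  have hur' : s56gw_UnrOut S (s56gw_dual M) :=
    Fermat.Agent.S55.tl_dualTwist_unramified M S hpS hur
  have hlec := fun q => hLEC p hp2 M hsm q
  have hlec' := fun q => hLEC p hp2 (s56gw_dual M) hsm' q
  -- the weak `H²`-bounds
  have hh2 := s56gwh_main p hp2 S hpS M hsm hur inferInstance (fun q _ => (hlec q).2.1)
  have hh2' := s56gwh_main p hp2 S hpS (s56gw_dual M) hsm' hur' inferInstance
    (fun q _ => (hlec' q).2.1)
  -- S55 for `M` and for `M'`
  obtain ⟨Bp, -, hBr⟩ := s56gwa_PT p hp2 S hpS M hsm hur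
  obtain ⟨Bp', -, hBr'⟩ := s56gwa_PT p hp2 S hpS (s56gw_dual M) hsm' hur'
  have hsha1fin : FiniteDimensional (ZMod p) ↥(sha₁ S M) :=
    Submodule.finiteDimensional_of_le (inf_le_left : sha₁ S M ≤ continuousH1S S M)
  have hsha1fin' : FiniteDimensional (ZMod p) ↥(sha₁ S (s56gw_dual M)) :=
    Submodule.finiteDimensional_of_le
      (inf_le_left : sha₁ S (s56gw_dual M) ≤ continuousH1S S (s56gw_dual M))
  obtain ⟨hsha1fin'', e5⟩ := s56egb_sha1_le hp2 S (s56gdlc_evIso M)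
  have e4 : finrank (ZMod p) ↥(sha₂ S M) ≤ finrank (ZMod p) ↥(sha₁ S (s56gw_dual M)) :=
    s56gwa_finrank_le_of_right_nondeg Bp hBr
  have e4' : finrank (ZMod p) ↥(sha₂ S (s56gw_dual M))
      ≤ finrank (ZMod p) ↥(sha₁ S (s56gw_dual (s56gw_dual M))) :=
    s56gwa_finrank_le_of_right_nondeg Bp' hBr'
  -- the abstract count with the zero local conditions
  have hcount := s56gwa_count (k := ZMod p) S
    (X := fun q => ↥(H1 (s56gw_res M q))) (X' := fun q => ↥(H1 (s56gw_res (s56gw_dual M) q)))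
    DS.B (fun q => s56gw_cH1 M q) (fun q => s56gw_cH1 (s56gw_dual M) q)
    (s56gwa_f S M) (s56gwa_f S (s56gw_dual M)) (fun _ => ⊥)
    (fun q _ => DS.fin q) (fun q _ => DS.right q)
    (fun q _ x => s56gwa_loc_mem _ M q x.1 x.2)
    (fun q _ y => s56gwa_loc_mem _ (s56gw_dual M) q y.1 y.2)
    (fun x y => DS.recip S hpS hur x.1 x.2 y.1 y.2)
    (fun ξ hξ h => by
      obtain ⟨x, hx, hxq⟩ := DS.middle S hpS hur ξ hξ (fun y hy => h ⟨y, hy⟩)
      exact ⟨⟨x, hx⟩, hxq⟩)
    (fun q _ => bot_le)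
  -- the four spaces of the count
  have c1 : (⨅ q ∈ S, (⊥ : Submodule (ZMod p) (H1 (s56gw_res M q))).comap (s56gwa_f S M q))
      = ⨅ q ∈ S, LinearMap.ker (s56gwa_f S M q) := rfl
  have c2 : ∑ q ∈ S, finrank (ZMod p) ↥(⊥ : Submodule (ZMod p) (H1 (s56gw_res M q))) = 0 :=
    Finset.sum_eq_zero fun q _ => finrank_bot _ _
  have c3 : (⨅ q ∈ S, (s56gwa_orthR (DS.B q)
      (⊥ : Submodule (ZMod p) (H1 (s56gw_res M q)))).comap (s56gwa_f S (s56gw_dual M) q)) = ⊤ := by
    rw [eq_top_iff]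
    intro y _
    simp only [Submodule.mem_iInf, Submodule.mem_comap, s56gwa_mem_orthR, Submodule.mem_bot]
    intro q _ l hl
    rw [hl, map_zero, LinearMap.zero_apply]
  rw [c1, c2, c3, finrank_top, zero_add] at hcount
  -- `Ш¹` lies in the kernels
  have e3 : finrank (ZMod p) ↥(sha₁ S M)
      ≤ finrank (ZMod p) ↥(⨅ q ∈ S, LinearMap.ker (s56gwa_f S M q)) := by
    rw [← Submodule.finrank_map_subtype_eq]
    exact Submodule.finrank_mono (s56gwa_sha_le hp2 S M)
  have e3' : finrank (ZMod p) ↥(sha₁ S (s56gw_dual M))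
      ≤ finrank (ZMod p) ↥(⨅ q ∈ S, LinearMap.ker (s56gwa_f S (s56gw_dual M) q)) := by
    rw [← Submodule.finrank_map_subtype_eq]
    exact Submodule.finrank_mono (s56gwa_sha_le hp2 S (s56gw_dual M))
  -- the local Euler characteristics of `M`, summed
  have e6 : ∑ q ∈ S, finrank (ZMod p) (continuousH2 (primeLocalToGlobal q) (s56gw_res M q))
        + ∑ q ∈ S, finrank (ZMod p) ↥(s56gw_res M q).ρ.invariants
        + finrank (ZMod p) M
      ≤ ∑ q ∈ S, finrank (ZMod p) ↥(s56gw_cH1 M q) := by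
    have h := Finset.sum_le_sum (fun q (_ : q ∈ S) => (hlec q).2.2)
    rw [Finset.sum_add_distrib, Finset.sum_add_distrib, Finset.sum_ite_eq' S (pPrime p)
      (fun _ => finrank (ZMod p) M), if_pos hpS] at h
    exact h
  -- the local seam (L2≤), summed
  have e7 : ∑ q ∈ S, finrank (ZMod p)
        (continuousH2 (primeLocalToGlobal q) (s56gw_res (s56gw_dual M) q))
      ≤ ∑ q ∈ S, finrank (ZMod p) ↥(s56gw_res M q).ρ.invariants :=
    Finset.sum_le_sum (fun q _ => hL2 p hp2 M hsm q)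
  omega

end Fermat.Agent.S56
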