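import Fermat.Agent.S56.GW.EC.GDef
import Fermat.Agent.S56.GW.EC.GA.Fin
import Fermat.Agent.S56.GW.EC.GB.Basic
import Fermat.Agent.S56.GW.EC.GB.Arch

/-!
# S56, node [GW-EC], cell [EC-GB]: input (B) in the shape of `GDef.lean` (prefix `s56egb_`)

`s56egb_B_main : s56gw_Dual_stmt → s56gw_LEC_stmt → s56egb_L2_stmt → s56eg_B_stmt`.
-/

set_option autoImplicit false

open CategoryTheory Module groupCohomology ExtCitation

namespace Fermat.Agent.S56

local notation "GQ" => (AlgebraicClosure ℚ ≃ₐ[ℚ] AlgebraicClosure ℚ)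

section infl

variable {p : ℕ} [Fact p.Prime] {Δ : Type} [Group Δ] {S : Finset Nat.Primes} {π : GQ →* Δ}
  {χ : Δ →* (ZMod p)ˣ}

/-- The inflation of a `Δ`-module along a level is smooth. -/
theorem s56egb_infl_smooth (hπ : s56eg_IsLev p S π χ) {M : Type} [AddCommGroup M]
    [Module (ZMod p) M] (ρ : Representation (ZMod p) Δ M) : s56gw_Smooth (s56eg_infl π ρ) := by
  obtain ⟨F, hF, hFk⟩ := hπ.smooth
  intro m
  refine ⟨F, hF, fun s hs => ?_⟩
  show ρ (π s) m = m
  rw [hFk s hs, map_one]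
  rfl

/-- The inflation of a `Δ`-module along a level unramified outside `S` is unramified outside
`S`. -/
theorem s56egb_infl_unr (hπ : s56eg_IsLev p S π χ) {M : Type} [AddCommGroup M]
    [Module (ZMod p) M] (ρ : Representation (ZMod p) Δ M) : s56gw_UnrOut S (s56eg_infl π ρ) := by
  intro q hq A hA g hg
  show ρ (π g) = 1
  rw [hπ.unr q hq A hA g hg, map_one]

end infl

/-- **[EC-GB] (B)** in the shape of `GDef.lean`. -/
theorem s56egb_B_main (hDual : s56gw_Dual_stmt) (hLEC : s56gw_LEC_stmt)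
    (hL2 : s56egb_L2_stmt) : s56eg_B_stmt := by
  intro p _ hp2 S hpS Δ _ _ π χ hπ M _ _ _ ρ
  have hsm : s56gw_Smooth (s56eg_infl π ρ) := s56egb_infl_smooth hπ ρ
  have hur : s56gw_UnrOut S (s56eg_infl π ρ) := s56egb_infl_unr hπ ρ
  have : FiniteDimensional (ZMod p) (s56eg_infl π ρ) :=
    inferInstanceAs (FiniteDimensional (ZMod p) M)
  have hsm' : s56gw_Smooth (s56gw_dual (s56eg_infl π ρ)) :=
    Fermat.Agent.S55.tl_dualTwist_smooth _ hsm
  have hur' : s56gw_UnrOut S (s56gw_dual (s56eg_infl π ρ)) :=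
    Fermat.Agent.S55.tl_dualTwist_unramified _ S hpS hur
  obtain ⟨f1, f2⟩ := s56ega_fin hLEC hp2 S hpS (s56eg_infl π ρ) hsm hur
  obtain ⟨f1', f2'⟩ := s56ega_fin hLEC hp2 S hpS (s56gw_dual (s56eg_infl π ρ)) hsm' hur'
  have hB := s56egb_B hDual hLEC hL2 p hp2 S hpS (s56eg_infl π ρ) hsm hur
  have hA := s56egb_arch hp2 (s56eg_infl π ρ)
  have hdual : s56eg_infl π (ρ.dual.twist χ) = s56gw_dual (s56eg_infl π ρ) :=
    s56ega_infl_dualTwist π χ hπ.cyc ρ
  have n1 : finrank (ZMod p) ↥(s56eg_infl π ρ).ρ.invariants = finrank (ZMod p) ↥ρ.invariants := by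
    rw [s56ega_invariants_infl hπ.surj ρ]
  have n2 : finrank (ZMod p) ↥(s56eg_infl π (ρ.dual.twist χ)).ρ.invariants
      = finrank (ZMod p) ↥(ρ.dual.twist χ).invariants := by
    rw [s56ega_invariants_infl hπ.surj (ρ.dual.twist χ)]
  have hd : finrank (ZMod p) (Module.Dual (ZMod p) M) = finrank (ZMod p) M :=
    Subspace.dual_finrank_eq
  have hM : finrank (ZMod p) (s56eg_infl π ρ) = finrank (ZMod p) M := rfl
  have g1 := congrArg (fun N : Rep.{0} (ZMod p) GQ => finrank (ZMod p) (continuousH1S S N)) hdual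
  have g2 := congrArg (fun N : Rep.{0} (ZMod p) GQ => finrank (ZMod p) (continuousH2S S N)) hdual
  have g3 := congrArg (fun N : Rep.{0} (ZMod p) GQ => finrank (ZMod p) N.ρ.invariants) hdual
  have g4 := congrArg (fun N : Rep.{0} (ZMod p) GQ =>
    finrank (ZMod p) (s56gw_resInf N).ρ.invariants) hdual
  beta_reduce at g1 g2 g3 g4
  unfold s56eg_f
  omega

end Fermat.Agent.S56
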