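import Fermat.Agent.S56.GW.EC.GB.Closed
import Fermat.Agent.S56.GW.EC.L2.Closed
import Fermat.Agent.S56.GW.EC.GWire

/-!
# S56, node [GW-EC], cell [EC-GB]: closed terms (prefix `s56egb_`)

* `s56egb_B_final : s56eg_B_stmt`, `s56egb_Bplus_final : s56eg_Bplus_stmt` — no hypothesis left
  ([GW-DUAL] `s56gdg_dual`, [GW-LEC] `s56el2_LEC_closed`, [EC-L2] `s56el2_closed`, the degree cell
  `s56ldg_main` are plugged in);
* `s56egb_GEC_of_C : s56eg_C_stmt → s56gw_GEC_stmt` — the global Euler characteristic seam from the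
  base case (C) alone.
-/

set_option autoImplicit false

namespace Fermat.Agent.S56

/-- **[EC-GB] (B)**, closed. -/
theorem s56egb_B_final : s56eg_B_stmt := s56egb_B_closed s56el2_LEC_closed s56el2_closed

/-- **[EC-GB] (B⁺)**, closed. -/
theorem s56egb_Bplus_final : s56eg_Bplus_stmt :=
  s56egb_Bplus_closed s56el2_LEC_closed s56el2_closed

/-- **[GW-EC]** from the base case (C) alone. -/
theorem s56egb_GEC_of_C (hC : s56eg_C_stmt) : s56gw_GEC_stmt :=
  s56eg_GEC_of s56el2_LEC_closed s56el2_closed s56egb_Bplus_final hC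

end Fermat.Agent.S56
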