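import Fermat.Agent.S56.GW.Dual.Inv.Seam
import Fermat.Agent.S55.Level.LES

/-!
# S56, node [GW-EC], cell [EC-GB], part (B⁺), step 2: a class of `H²(G_q, μ_p)` with non-zero
invariant (prefix `s56egb_`)

* `s56egb_Deg_stmt` : the arithmetic input "some plain level has local degree at `q` divisible
  by `p`" (`p ∣ #D_q(a)`);
* `s56egb_exists_tors` : then `H²(G_q, (ℚ̄_q)ˣ)` contains a class killed by `p` with non-zero limit
  invariant (`PClassModule.inv_gen` of the level + `s56gdi_inv_infl`);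
* `s56egb_exists_class` : for every `G_q`-module `A` with an equivariant isomorphism
  `κ : A ≅ μ_p ⊂ (ℚ̄_q)ˣ` there is `y ∈ H²(G_q, A)` with `inv_q (κ_* y) ≠ 0` (Kummer sequence
  `0 → A → Ω → Ω → 0`, exactness at `H²(Ω)`).
-/

set_option autoImplicit false
set_option linter.unusedSectionVars false

open CategoryTheory groupCohomology ExtCitation

namespace Fermat.Agent.S56

open Fermat.Agent.S55

local notation "Qbar" => AlgebraicClosure ℚ
local notation "GQ" => (AlgebraicClosure ℚ ≃ₐ[ℚ] AlgebraicClosure ℚ)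

noncomputable section

/-- **Arithmetic input (Deg)**: for every prime `q` there is a finite Galois extension of `ℚ`
whose decomposition group at `q` has order divisible by `p`. -/
def s56egb_Deg_stmt : Prop :=
  ∀ (p : ℕ) [Fact p.Prime] (q : Nat.Primes), ∃ a : s56gd_Fld, p ∣ Nat.card ↥(s56gd_D q a)

section Abs

variable {G : Type*} [Group G] (L : LevelSys G) {X : Type*} [AddCommGroup X]
  [DistribMulAction G X]

/-- Multiplication by `n` on the coefficients induces multiplication by `n` on `H²`. -/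
theorem s56egb_H2_nsmul (n : ℕ) (m : LvMor L X L X) (hf : ∀ g, m.f g = g)
    (hφ : ∀ x, m.φ x = n • x) (z : lvH2 L X) : m.H2 z = n • z := by
  obtain ⟨c, rfl⟩ := lvH2mk_surjective z
  rw [LvMor.H2_mk, ← map_nsmul]
  congr 1
  apply Subtype.ext
  funext g
  show m.φ ((c : G × G → X) (m.f g.1, m.f g.2)) = n • (c : G × G → X) g
  rw [hf, hf, hφ]

/-- The Kummer-type sequence `0 → A → X → X → 0` (`π = n •`) attached to an equivariant
isomorphism of `A` onto the `n`-torsion of a divisible module `X`. -/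
def s56egb_kummer {A : Type*} [AddCommGroup A] [DistribMulAction G A] (n : ℕ) (κ : A →+ X)
    (hκe : ∀ (g : G) (a : A), κ (g • a) = g • κ a) (hκi : Function.Injective κ)
    (hκs : ∀ x : X, n • x = 0 → ∃ a, κ a = x) (hnA : ∀ a : A, n • a = 0)
    (hdiv : ∀ x : X, ∃ y : X, n • y = x) : LvSES G A X X where
  i := κ
  π := nsmulAddMonoidHom n
  i_equiv := hκe
  π_equiv g x := by
    show n • (g • x) = g • (n • x)
    rw [smul_comm]
  i_inj := hκi
  π_surj := hdiv
  exact x := by
    constructor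
    · intro h
      exact hκs x h
    · rintro ⟨a, rfl⟩
      show n • κ a = 0
      rw [← map_nsmul, hnA, map_zero]

end Abs

variable (p : ℕ) [Fact p.Prime] (q : Nat.Primes)

/-- **A `p`-torsion class of `H²(G_q, (ℚ̄_q)ˣ)` with non-zero invariant.** -/
theorem s56egb_exists_tors (hDeg : s56egb_Deg_stmt) :
    ∃ z : lvH2 (tl_levelsLoc q) (tl_locUnits q), p • z = 0 ∧ s56gdi_inv p q z ≠ 0 := by
  have hp : p.Prime := Fact.out
  obtain ⟨a, ha⟩ := hDeg p q
  obtain ⟨u, hu, hord⟩ := (ils_Pq p q a.L).inv_gen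
  set k := (Nat.card ↥(s56gd_D q a)).factorization p with hk
  have hcard0 : Nat.card ↥(s56gd_D q a) ≠ 0 := Nat.card_pos.ne'
  have hk1 : 1 ≤ k := (hp.dvd_iff_one_le_factorization hcard0).1 ha
  have hord' : addOrderOf ((ils_Pq p q a.L).invTop u) = p ^ k := hord
  -- `x = infl u`, `inv x` has order `p ^ k`
  set x : lvH2 (tl_levelsLoc q) (tl_locUnits q) := s56gdi_infl q a u with hx
  have hxp : tt_IsPPrimary p x := s56gdi_isPPrimary_infl p q u hu
  have hinvx : s56gdi_inv p q x = (ils_Pq p q a.L).invTop u := s56gdi_inv_infl p q a u hu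
  refine ⟨p ^ (k - 1) • x, ?_, ?_⟩
  · -- killed by `p`
    have h1 : p • (p ^ (k - 1) • x) = p ^ k • x := by
      rw [← mul_smul, ← pow_succ', Nat.sub_add_cancel hk1]
    rw [h1]
    apply s56gdi_inv_eq_zero p q _ (tt_isPPrimary_nsmul _ hxp)
    rw [s56gdi_inv_nsmul p q _ x hxp, hinvx, ← hord']
    exact addOrderOf_nsmul_eq_zero _
  · -- non-zero invariant
    rw [s56gdi_inv_nsmul p q _ x hxp, hinvx]
    intro h0
    have hdvd := addOrderOf_dvd_of_nsmul_eq_zero h0
    rw [hord'] at hdvd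
    have hle := Nat.le_of_dvd (pow_pos hp.pos _) hdvd
    have hlt : p ^ (k - 1) < p ^ k := Nat.pow_lt_pow_right hp.one_lt (by omega)
    omega

/-- **A class of `H²(G_q, μ_p)` with non-zero invariant.** -/
theorem s56egb_exists_class (hDeg : s56egb_Deg_stmt) {A : Type} [AddCommGroup A]
    [DistribMulAction (primeLocalGaloisGroup q) A] (κ : A →+ tl_locUnits q)
    (hκe : ∀ (τ : primeLocalGaloisGroup q) (a : A), κ (τ • a) = τ • κ a)
    (hκi : Function.Injective κ) (hκs : ∀ x : tl_locUnits q, p • x = 0 → ∃ a, κ a = x)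
    (hpA : ∀ a : A, p • a = 0) :
    ∃ y : lvH2 (tl_levelsLoc q) A,
      s56gdi_inv p q ((LvMor.ofCoeff (tl_levelsLoc q) κ hκe).H2 y) ≠ 0 := by
  have hp : p.Prime := Fact.out
  obtain ⟨z, hpz, hz⟩ := s56egb_exists_tors p q hDeg
  set E := s56egb_kummer (G := primeLocalGaloisGroup q) p κ hκe hκi hκs hpA
    (tl_locUnits_divisible q p hp.ne_zero) with hE
  have h0 : (E.mπ (tl_levelsLoc q)).H2 z = 0 := by
    rw [s56egb_H2_nsmul (tl_levelsLoc q) p (E.mπ (tl_levelsLoc q)) (fun _ => rfl)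
      (fun _ => rfl) z]
    exact hpz
  obtain ⟨y, hy⟩ := (E.exact_H2B (tl_levelsLoc q) (tl_isSmooth_locUnits q) z).1 h0
  refine ⟨y, ?_⟩
  have : (LvMor.ofCoeff (tl_levelsLoc q) κ hκe).H2 y = z := hy
  rw [this]
  exact hz

end

end Fermat.Agent.S56
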