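import Fermat.Agent.S56.GW.EC.GB.PlusRec
import Fermat.Agent.S56.GW.EC.GB.PlusNV
import Fermat.Agent.S56.GW.H2.Main

/-!
# S56, node [GW-EC], cell [EC-GB], part (B⁺), step 3: the improved `H²`-bound for `μ_p`
(prefix `s56egb_`)

`s56egb_H2plus`: if `N ≅ μ_p` (an injective equivariant `κ : N → E_S` onto the `p`-torsion), then

`h²(G_S, N) + 1 ≤ dim Ш²_S(N) + Σ_{q ∈ S} h²(G_q, N)`,

because the localisation `H²(G_S, N) → ⊕_{q ∈ S} H²(G_q, N)` is not onto: its image is killed by
`Σ_q inv_q ∘ κ_*` (`s56egb_recip`), which is non-zero on the `p`-component (`s56egb_exists_class`).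
-/

set_option autoImplicit false
set_option linter.unusedSectionVars false

open CategoryTheory Module groupCohomology ExtCitation

namespace Fermat.Agent.S56

open Fermat.Agent.S55

local notation "GQ" => (AlgebraicClosure ℚ ≃ₐ[ℚ] AlgebraicClosure ℚ)

/-- Abstract rank-nullity bound, improved by one when the total map is not onto. -/
theorem s56egb_abs_plus {K : Type*} [Field K] {V : Type*} [AddCommGroup V] [Module K V]
    [FiniteDimensional K V] {ι : Type*} [Fintype ι] (W : ι → Type*) [∀ i, AddCommGroup (W i)]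
    [∀ i, Module K (W i)] [∀ i, FiniteDimensional K (W i)] (f : ∀ i, V →ₗ[K] W i)
    (N : Submodule K V) (hN : ∀ x, x ∈ N ↔ ∀ i, f i x = 0)
    (w : ∀ i, W i) (hw : ∀ x, (fun i => f i x) ≠ w) :
    finrank K V + 1 ≤ finrank K N + ∑ i, finrank K (W i) := by
  have hker : LinearMap.ker (LinearMap.pi f) = N := by
    ext x
    rw [hN, LinearMap.mem_ker]
    constructor
    · intro h i
      exact congrFun h i
    · intro h
      funext i
      exact h i
  have h1 := LinearMap.finrank_range_add_finrank_ker (LinearMap.pi f)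
  have hlt : LinearMap.range (LinearMap.pi f) < ⊤ := by
    rw [lt_top_iff_ne_top]
    intro htop
    have : w ∈ LinearMap.range (LinearMap.pi f) := by
      rw [htop]
      exact Submodule.mem_top
    obtain ⟨x, hx⟩ := this
    exact hw x hx
  have h2 : finrank K (LinearMap.range (LinearMap.pi f)) < finrank K (∀ i, W i) :=
    Submodule.finrank_lt (lt_top_iff_ne_top.1 hlt)
  rw [Module.finrank_pi_fintype] at h2
  rw [hker] at h1
  omega

variable {p : ℕ} [Fact p.Prime]

/-- **The improved `H²`-bound for `N ≅ μ_p`.** -/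
theorem s56egb_H2plus (hDeg : s56egb_Deg_stmt) (hp2 : p ≠ 2) (S : Finset Nat.Primes)
    (hpS : pPrime p ∈ S) (N : Rep.{0} (ZMod p) GQ) (κ : N.V →+ dm_ES S)
    (hκe : ∀ (σ : GQ) (n : N.V), κ (N.ρ σ n) = σ • κ n) (hκi : Function.Injective κ)
    (hκs : ∀ x : dm_ES S, p • x = 0 → ∃ n, κ n = x)
    [FiniteDimensional (ZMod p) (continuousH2S S N)]
    (hfin : ∀ q ∈ S, FiniteDimensional (ZMod p)
      (continuousH2 (primeLocalToGlobal q) (s56gw_res N q))) :
    finrank (ZMod p) (continuousH2S S N) + 1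
      ≤ finrank (ZMod p) (sha₂ S N)
        + ∑ q ∈ S, finrank (ZMod p) (continuousH2 (primeLocalToGlobal q) (s56gw_res N q)) := by
  classical
  have hp : p.Prime := Fact.out
  have hpN : ∀ n : N.V, p • n = 0 := by
    intro n
    have h : (p : ZMod p) • n = 0 := by rw [ZMod.natCast_self, zero_smul]
    rwa [Nat.cast_smul_eq_nsmul] at h
  -- the global coefficient morphism `N → E_S`
  let κG : tl_Act N →+ dm_ES S := κ
  have hκGe : ∀ (σ : GQ) (n : tl_Act N), κG (σ • n) = σ • κG n := fun σ n => hκe σ n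
  let mκ : LvMor (tl_levelsS S) (tl_Act N) (tl_levelsS S) (dm_ES S) :=
    LvMor.ofCoeff (tl_levelsS S) κG hκGe
  -- the local coefficient morphisms `N → (ℚ̄_q)ˣ`
  let κL : ∀ q : Nat.Primes, tl_Act (s56gw_res N q) →+ tl_locUnits q :=
    fun q => (dm_ESloc S q).comp κ
  have hκLe : ∀ (q : Nat.Primes) (τ : primeLocalGaloisGroup q) (n : tl_Act (s56gw_res N q)),
      κL q (τ • n) = τ • κL q n := by
    intro q τ n
    exact (congrArg (dm_ESloc S q) (hκe (primeLocalToGlobal q τ) n)).trans
      (dm_ESloc_smul S q τ (κ n))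
  let mL : ∀ q : Nat.Primes, LvMor (tl_levelsLoc q) (tl_Act (s56gw_res N q)) (tl_levelsLoc q)
      (tl_locUnits q) := fun q => LvMor.ofCoeff (tl_levelsLoc q) (κL q) (hκLe q)
  -- the class at `p` with non-zero invariant
  have hκLi : Function.Injective (κL (pPrime p)) :=
    (dm_ESloc_injective S (pPrime p)).comp hκi
  have hκLs : ∀ x : tl_locUnits (pPrime p), p • x = 0 → ∃ n, κL (pPrime p) n = x := by
    intro x hx
    obtain ⟨c, hc⟩ := dm_locUnits_torsion S hpS (s56gd_zeta_spec p) (pPrime p) x hx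
    obtain ⟨n, hn⟩ := hκs (dm_pair (dm_zeta S hpS (s56gd_zeta_spec p))
      (dm_nsmul_zeta S hpS (s56gd_zeta_spec p)) c) (by
        have hc0 : p • c = 0 := by rw [nsmul_eq_mul, ZMod.natCast_self, zero_mul]
        rw [← map_nsmul, hc0, map_zero])
    refine ⟨n, ?_⟩
    show dm_ESloc S (pPrime p) (κ n) = x
    rw [hn, dm_ESloc_pair, hc]
  obtain ⟨y₀, hy₀⟩ := s56egb_exists_class p (pPrime p) hDeg (κL (pPrime p)) (hκLe (pPrime p))
    hκLi hκLs (fun n => hpN n)
  -- the tuple which is not in the image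
  let q₀ : ↥S := ⟨pPrime p, hpS⟩
  let w₀ : continuousH2 (primeLocalToGlobal q₀.1) (s56gw_res N q₀.1) :=
    (tl_H2via_equiv (primeLocalToGlobal q₀.1) (s56gw_res N q₀.1)).symm y₀
  have : ∀ q : ↥S, FiniteDimensional (ZMod p)
      (continuousH2 (primeLocalToGlobal q.1) (s56gw_res N q.1)) := fun q => hfin q.1 q.2
  have h := s56egb_abs_plus (K := ZMod p) (V := continuousH2S S N)
    (fun q : ↥S => continuousH2 (primeLocalToGlobal q.1) (s56gw_res N q.1))
    (fun q => locRes₂S S N (primeLocalToGlobal q.1)) (sha₂ S N)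
    (Fermat.Agent.S55.tl_mem_sha₂_iff hp2 S N) (Pi.single q₀ w₀) ?_
  · rw [Finset.sum_coe_sort S (fun q => finrank (ZMod p)
      (continuousH2 (primeLocalToGlobal q) (s56gw_res N q)))] at h
    exact h
  · intro x hx
    -- the global class in `H²(G_S, E_S)`
    set X : lvH2 (tl_levelsS S) (tl_Act N) := tl_H2S_equiv S N x with hX
    have hpX : p • X = 0 := by
      rw [hX, ← map_nsmul]
      have : p • x = 0 := by
        have h : (p : ZMod p) • x = 0 := by rw [ZMod.natCast_self, zero_smul]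
        rwa [Nat.cast_smul_eq_nsmul] at h
      rw [this, map_zero]
    have hrec := s56egb_recip hp2 S hpS (mκ.H2 X) (by rw [← map_nsmul, hpX, map_zero])
    -- the local terms
    have hterm : ∀ q : ↥S, (s56egb_mES S q.1).H2 (mκ.H2 X) =
        (mL q.1).H2 (tl_H2via_equiv (primeLocalToGlobal q.1) (s56gw_res N q.1)
          (locRes₂S S N (primeLocalToGlobal q.1) x)) := by
      intro q
      rw [tl_H2via_equiv_locRes₂S, ← LvMor.H2_comp]
      have h2 := LvMor.H2_comp (mL q.1) (tl_locMor S (primeLocalToGlobal q.1) N) X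
      refine Eq.trans ?_ h2
      exact s56gdc_H2_congr _ _ (fun _ => rfl) (fun _ => rfl) X
    have hx' : ∀ q : ↥S, locRes₂S S N (primeLocalToGlobal q.1) x =
        (Pi.single q₀ w₀ : ∀ q : ↥S, continuousH2 (primeLocalToGlobal q.1) (s56gw_res N q.1)) q :=
      fun q => congrFun hx q
    rw [Finset.sum_eq_single q₀] at hrec
    · apply hy₀
      rw [hterm q₀, hx' q₀, Pi.single_eq_same] at hrec
      have e : tl_H2via_equiv (primeLocalToGlobal q₀.1) (s56gw_res N q₀.1) w₀ = y₀ :=
        (tl_H2via_equiv (primeLocalToGlobal q₀.1) (s56gw_res N q₀.1)).apply_symm_apply y₀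
      rw [e] at hrec
      exact hrec
    · intro q _ hq
      rw [hterm q, hx' q, Pi.single_eq_of_ne hq, map_zero]
      exact (congrArg (s56gdi_inv p q.1) (map_zero (mL q.1).H2)).trans (s56gdi_inv_zero p q.1)
    · intro hq
      exact absurd (Finset.mem_univ q₀) hq

end Fermat.Agent.S56
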