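import Fermat.Agent.S56.GW.EC.GB.Stmt
import Fermat.Agent.S56.GW.EC.GB.PlusH2

/-!
# S56, node [GW-EC], cell [EC-GB]: input (B⁺) in the shape of `GDef.lean` (prefix `s56egb_`)

`s56egb_Bplus_main : s56gw_Dual_stmt → s56gw_LEC_stmt → s56egb_L2_stmt → s56egb_Deg_stmt →
s56eg_Bplus_stmt`:  `f(F_p) + f(μ_p) ≥ 0`.

* `s56egb_Bdelta` : the count of `GB/Basic.lean` with the `H²`-bound of `M'` improved by `δ`;
* `s56egb_kap` : the equivariant isomorphism `κ : (F_p)^*(1) ≅ μ_p ⊂ E_S`, `ν ↦ ζ^{ν(1)}`;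
* `s56egb_noInv` : `H⁰(G_ℚ, (F_p)^*(1)) = 0` for `p` odd (complex conjugation acts by `-1`).
-/

set_option autoImplicit false
set_option linter.unusedSectionVars false

open CategoryTheory Module groupCohomology ExtCitation

namespace Fermat.Agent.S56

open Fermat.Agent.S55

local notation "GQ" => (AlgebraicClosure ℚ ≃ₐ[ℚ] AlgebraicClosure ℚ)

/-- **[EC-GB] (B)** with the weak `H²`-bound of `M'` improved by `δ`:
`h²_S(M) + h²_S(M') + dim M + δ ≤ h¹_S(M) + h¹_S(M')`. -/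
theorem s56egb_Bdelta (hDual : s56gw_Dual_stmt) (hLEC : s56gw_LEC_stmt) (hL2 : s56egb_L2_stmt)
    (p : ℕ) [Fact p.Prime] (hp2 : p ≠ 2) (S : Finset Nat.Primes) (hpS : pPrime p ∈ S)
    (M : Rep.{0} (ZMod p) GQ) [FiniteDimensional (ZMod p) M]
    (hsm : s56gw_Smooth M) (hur : s56gw_UnrOut S M)
    [FiniteDimensional (ZMod p) (continuousH1S S M)]
    [FiniteDimensional (ZMod p) (continuousH1S S (s56gw_dual M))]
    [FiniteDimensional (ZMod p) (continuousH2S S M)]
    [FiniteDimensional (ZMod p) (continuousH2S S (s56gw_dual M))] (δ : ℕ)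
    (hh2' : finrank (ZMod p) (continuousH2S S (s56gw_dual M)) + δ
      ≤ finrank (ZMod p) (sha₂ S (s56gw_dual M))
        + ∑ q ∈ S, finrank (ZMod p)
            (continuousH2 (primeLocalToGlobal q) (s56gw_res (s56gw_dual M) q))) :
    finrank (ZMod p) (continuousH2S S M) + finrank (ZMod p) (continuousH2S S (s56gw_dual M))
        + finrank (ZMod p) M + δ
      ≤ finrank (ZMod p) (continuousH1S S M)
        + finrank (ZMod p) (continuousH1S S (s56gw_dual M)) := by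
  obtain ⟨DS⟩ := hDual p hp2 M hsm
  have hsm' : s56gw_Smooth (s56gw_dual M) := Fermat.Agent.S55.tl_dualTwist_smooth M hsm
  have hur' : s56gw_UnrOut S (s56gw_dual M) :=
    Fermat.Agent.S55.tl_dualTwist_unramified M S hpS hur
  have hlec := fun q => hLEC p hp2 M hsm q
  have hh2 := s56gwh_main p hp2 S hpS M hsm hur inferInstance (fun q _ => (hlec q).2.1)
  obtain ⟨Bp, -, hBr⟩ := s56gwa_PT p hp2 S hpS M hsm hur
  obtain ⟨Bp', -, hBr'⟩ := s56gwa_PT p hp2 S hpS (s56gw_dual M) hsm' hur'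
  have hsha1fin : FiniteDimensional (ZMod p) ↥(sha₁ S M) :=
    Submodule.finiteDimensional_of_le (inf_le_left : sha₁ S M ≤ continuousH1S S M)
  have hsha1fin' : FiniteDimensional (ZMod p) ↥(sha₁ S (s56gw_dual M)) :=
    Submodule.finiteDimensional_of_le
      (inf_le_left : sha₁ S (s56gw_dual M) ≤ continuousH1S S (s56gw_dual M))
  obtain ⟨hsha1fin'', e5⟩ := s56egb_sha1_le hp2 S (s56gdlc_evIso M)
  have e4 : finrank (ZMod p) ↥(sha₂ S M) ≤ finrank (ZMod p) ↥(sha₁ S (s56gw_dual M)) :=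
    s56gwa_finrank_le_of_right_nondeg Bp hBr
  have e4' : finrank (ZMod p) ↥(sha₂ S (s56gw_dual M))
      ≤ finrank (ZMod p) ↥(sha₁ S (s56gw_dual (s56gw_dual M))) :=
    s56gwa_finrank_le_of_right_nondeg Bp' hBr'
  have hcount := s56gwa_count (k := ZMod p) S
    (X := fun q => ↥(H1 (s56gw_res M q))) (X' := fun q => ↥(H1 (s56gw_res (s56gw_dual M) q)))
    DS.B (fun q => s56gw_cH1 M q) (fun q => s56gw_cH1 (s56gw_dual M) q)
    (s56gwa_f S M) (s56gwa_f S (s56gw_dual M)) (fun _ => ⊥)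
    (fun q _ => DS.fin q) (fun q _ => DS.right q)
    (fun q _ x => s56gwa_loc_mem _ M q x.1 x.2)
    (fun q _ y => s56gwa_loc_mem _ (s56gw_dual M) q y.1 y.2)
    (fun x y => DS.recip S hpS hur x.1 x.2 y.1 y.2)
    (fun ξ hξ h => by
      obtain ⟨x, hx, hxq⟩ := DS.middle S hpS hur ξ hξ (fun y hy => h ⟨y, hy⟩)
      exact ⟨⟨x, hx⟩, hxq⟩)
    (fun q _ => bot_le)
  have c1 : (⨅ q ∈ S, (⊥ : Submodule (ZMod p) (H1 (s56gw_res M q))).comap (s56gwa_f S M q))
      = ⨅ q ∈ S, LinearMap.ker (s56gwa_f S M q) := rfl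
  have c2 : ∑ q ∈ S, finrank (ZMod p) ↥(⊥ : Submodule (ZMod p) (H1 (s56gw_res M q))) = 0 :=
    Finset.sum_eq_zero fun q _ => finrank_bot _ _
  have c3 : (⨅ q ∈ S, (s56gwa_orthR (DS.B q)
      (⊥ : Submodule (ZMod p) (H1 (s56gw_res M q)))).comap (s56gwa_f S (s56gw_dual M) q)) = ⊤ := by
    rw [eq_top_iff]
    intro y _
    simp only [Submodule.mem_iInf, Submodule.mem_comap, s56gwa_mem_orthR, Submodule.mem_bot]
    intro q _ l hl
    rw [hl, map_zero, LinearMap.zero_apply]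
  rw [c1, c2, c3, finrank_top, zero_add] at hcount
  have e3 : finrank (ZMod p) ↥(sha₁ S M)
      ≤ finrank (ZMod p) ↥(⨅ q ∈ S, LinearMap.ker (s56gwa_f S M q)) := by
    rw [← Submodule.finrank_map_subtype_eq]
    exact Submodule.finrank_mono (s56gwa_sha_le hp2 S M)
  have e3' : finrank (ZMod p) ↥(sha₁ S (s56gw_dual M))
      ≤ finrank (ZMod p) ↥(⨅ q ∈ S, LinearMap.ker (s56gwa_f S (s56gw_dual M) q)) := by
    rw [← Submodule.finrank_map_subtype_eq]
    exact Submodule.finrank_mono (s56gwa_sha_le hp2 S (s56gw_dual M))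
  have e6 : ∑ q ∈ S, finrank (ZMod p) (continuousH2 (primeLocalToGlobal q) (s56gw_res M q))
        + ∑ q ∈ S, finrank (ZMod p) ↥(s56gw_res M q).ρ.invariants
        + finrank (ZMod p) M
      ≤ ∑ q ∈ S, finrank (ZMod p) ↥(s56gw_cH1 M q) := by
    have h := Finset.sum_le_sum (fun q (_ : q ∈ S) => (hlec q).2.2)
    rw [Finset.sum_add_distrib, Finset.sum_add_distrib, Finset.sum_ite_eq' S (pPrime p)
      (fun _ => finrank (ZMod p) M), if_pos hpS] at h
    exact h
  have e7 : ∑ q ∈ S, finrank (ZMod p)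
        (continuousH2 (primeLocalToGlobal q) (s56gw_res (s56gw_dual M) q))
      ≤ ∑ q ∈ S, finrank (ZMod p) ↥(s56gw_res M q).ρ.invariants :=
    Finset.sum_le_sum (fun q _ => hL2 p hp2 M hsm q)
  omega

section mu

variable {p : ℕ} [Fact p.Prime] (S : Finset Nat.Primes) (hpS : pPrime p ∈ S)
  (M : Rep.{0} (ZMod p) GQ)

/-- Evaluation of a functional at a vector, as an additive map. -/
def s56egb_ev (v : M.V) : (s56gw_dual M).V →+ ZMod p where
  toFun ν := (ν : Module.Dual (ZMod p) M.V) v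
  map_zero' := rfl
  map_add' _ _ := rfl

/-- `κ : M^*(1) → E_S`, `ν ↦ ζ^{ν(v)}`. -/
noncomputable def s56egb_kap (v : M.V) : (s56gw_dual M).V →+ dm_ES S :=
  (dm_pair (dm_zeta S hpS (s56gd_zeta_spec p)) (dm_nsmul_zeta S hpS (s56gd_zeta_spec p))).comp
    (s56egb_ev M v)

theorem s56egb_kap_apply (v : M.V) (ν : (s56gw_dual M).V) :
    s56egb_kap S hpS M v ν =
      dm_pair (dm_zeta S hpS (s56gd_zeta_spec p)) (dm_nsmul_zeta S hpS (s56gd_zeta_spec p))
        ((ν : Module.Dual (ZMod p) M.V) v) := rfl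

/-- `κ` is equivariant when `v` is fixed by the Galois group. -/
theorem s56egb_kap_equiv (v : M.V) (hv : ∀ σ : GQ, M.ρ σ v = v) (σ : GQ)
    (ν : (s56gw_dual M).V) :
    s56egb_kap S hpS M v ((s56gw_dual M).ρ σ ν) = σ • s56egb_kap S hpS M v ν := by
  rw [s56egb_kap_apply, s56egb_kap_apply, Rep.dualTwist_ρ_apply]
  have h1 : ((cycloChar p σ : ZMod p) • ((ν : Module.Dual (ZMod p) M.V) ∘ₗ M.ρ σ⁻¹)) v =
      (cycloChar p σ : ZMod p) * (ν : Module.Dual (ZMod p) M.V) v := by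
    rw [LinearMap.smul_apply, LinearMap.comp_apply, hv, smul_eq_mul]
  refine (congrArg (dm_pair (dm_zeta S hpS (s56gd_zeta_spec p))
    (dm_nsmul_zeta S hpS (s56gd_zeta_spec p))) h1).trans ?_
  generalize (ν : Module.Dual (ZMod p) M.V) v = c
  rw [dm_pair_mul, dm_pair_apply]
  have h2 : σ • (c.val • dm_zeta S hpS (s56gd_zeta_spec p)) =
      c.val • (σ • dm_zeta S hpS (s56gd_zeta_spec p)) :=
    map_nsmul (DistribSMul.toAddMonoidHom (dm_ES S) σ) _ _
  rw [h2, dm_smul_zeta, dm_pair_apply, smul_comm]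

/-- `κ` is injective when `v` spans `M`. -/
theorem s56egb_kap_injective (v : M.V) (hspan : ∀ m : M.V, ∃ c : ZMod p, m = c • v) :
    Function.Injective (s56egb_kap S hpS M v) := by
  rw [injective_iff_map_eq_zero]
  intro ν hν
  rw [s56egb_kap_apply] at hν
  have h0 : (ν : Module.Dual (ZMod p) M.V) v = 0 := by
    have := dm_pair_injective (dm_zeta S hpS (s56gd_zeta_spec p))
      (dm_nsmul_zeta S hpS (s56gd_zeta_spec p)) (dm_zeta_ne_zero S hpS (s56gd_zeta_spec p))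
      (hν.trans (map_zero _).symm)
    exact this
  have : (ν : Module.Dual (ZMod p) M.V) = 0 := by
    refine LinearMap.ext fun m => ?_
    obtain ⟨c, rfl⟩ := hspan m
    rw [map_smul, h0, smul_zero]
    rfl
  exact this

/-- `κ` is onto the `p`-torsion of `E_S` when some functional is `1` at `v`. -/
theorem s56egb_kap_surj (v : M.V) (f₀ : Module.Dual (ZMod p) M.V) (hf₀ : f₀ v = 1)
    (x : dm_ES S) (hx : p • x = 0) : ∃ ν, s56egb_kap S hpS M v ν = x := by
  obtain ⟨c, rfl⟩ := dm_ES_torsion S hpS (s56gd_zeta_spec p) x hx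
  refine ⟨(show (s56gw_dual M).V from c • f₀), ?_⟩
  rw [s56egb_kap_apply]
  congr 1
  show (c • f₀) v = c
  rw [LinearMap.smul_apply, hf₀, smul_eq_mul, mul_one]

/-- `H⁰(G_ℚ, M^*(1)) = 0` for `p` odd and `M` with trivial action. -/
theorem s56egb_noInv (hp2 : p ≠ 2) (htriv : ∀ (σ : GQ) (m : M.V), M.ρ σ m = m) :
    (s56gw_dual M).ρ.invariants = ⊥ := by
  have hp : p.Prime := Fact.out
  rw [eq_bot_iff]
  intro ν hν
  rw [Submodule.mem_bot]
  have h1 := (Representation.mem_invariants _ ν).1 hν complexConjugation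
  rw [Rep.dualTwist_ρ_apply, s56egb_cycloChar_conj] at h1
  have h2 : (ν : Module.Dual (ZMod p) M.V) ∘ₗ M.ρ (complexConjugation : GQ)⁻¹ =
      (ν : Module.Dual (ZMod p) M.V) := by
    refine LinearMap.ext fun m => ?_
    rw [LinearMap.comp_apply, htriv]
  rw [h2] at h1
  -- `-ν = ν`
  have h20 : (2 : ZMod p) ≠ 0 := by
    intro h
    have h4 : ((2 : ℕ) : ZMod p) = 0 := by exact_mod_cast h
    rw [ZMod.natCast_eq_zero_iff] at h4
    exact hp2 ((Nat.prime_dvd_prime_iff_eq hp Nat.prime_two).1 h4)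
  have h3 : (ν : Module.Dual (ZMod p) M.V) = 0 := by
    refine LinearMap.ext fun m => ?_
    have h5 := congrArg (fun f : Module.Dual (ZMod p) M.V => f m) h1
    simp only [LinearMap.smul_apply, smul_eq_mul, neg_one_mul] at h5
    have h6 : (2 : ZMod p) * (ν : Module.Dual (ZMod p) M.V) m = 0 := by
      linear_combination -h5
    exact (mul_eq_zero.1 h6).resolve_left h20
  exact h3

end mu

/-- **[EC-GB] (B⁺)** in the shape of `GDef.lean`. -/
theorem s56egb_Bplus_main (hDual : s56gw_Dual_stmt) (hLEC : s56gw_LEC_stmt)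
    (hL2 : s56egb_L2_stmt) (hDeg : s56egb_Deg_stmt) : s56eg_Bplus_stmt := by
  intro p _ hp2 S hpS Δ _ _ π χ hπ
  set ρ := Representation.trivial (ZMod p) Δ (ZMod p) with hρ
  have hsm : s56gw_Smooth (s56eg_infl π ρ) := s56egb_infl_smooth hπ ρ
  have hur : s56gw_UnrOut S (s56eg_infl π ρ) := s56egb_infl_unr hπ ρ
  have : FiniteDimensional (ZMod p) (s56eg_infl π ρ) :=
    inferInstanceAs (FiniteDimensional (ZMod p) (ZMod p))
  have hsm' : s56gw_Smooth (s56gw_dual (s56eg_infl π ρ)) :=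
    Fermat.Agent.S55.tl_dualTwist_smooth _ hsm
  have hur' : s56gw_UnrOut S (s56gw_dual (s56eg_infl π ρ)) :=
    Fermat.Agent.S55.tl_dualTwist_unramified _ S hpS hur
  obtain ⟨f1, f2⟩ := s56ega_fin hLEC hp2 S hpS (s56eg_infl π ρ) hsm hur
  obtain ⟨f1', f2'⟩ := s56ega_fin hLEC hp2 S hpS (s56gw_dual (s56eg_infl π ρ)) hsm' hur'
  -- the `μ_p`-structure on `M' = (F_p)^*(1)`
  have htriv : ∀ (σ : GQ) (m : (s56eg_infl π ρ).V), (s56eg_infl π ρ).ρ σ m = m := fun _ _ => rfl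
  have hplus := s56egb_H2plus hDeg hp2 S hpS (s56gw_dual (s56eg_infl π ρ))
    (s56egb_kap S hpS (s56eg_infl π ρ) (1 : ZMod p))
    (s56egb_kap_equiv S hpS (s56eg_infl π ρ) (1 : ZMod p) (fun σ => htriv σ _))
    (s56egb_kap_injective S hpS (s56eg_infl π ρ) (1 : ZMod p)
      (fun m => ⟨(show ZMod p from m), (mul_one (show ZMod p from m)).symm⟩))
    (s56egb_kap_surj S hpS (s56eg_infl π ρ) (1 : ZMod p) LinearMap.id rfl)
    (fun q _ => (hLEC p hp2 (s56gw_dual (s56eg_infl π ρ)) hsm' q).2.1)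
  have hB := s56egb_Bdelta hDual hLEC hL2 p hp2 S hpS (s56eg_infl π ρ) hsm hur 1 hplus
  have hA := s56egb_arch hp2 (s56eg_infl π ρ)
  have hdual : s56eg_infl π (ρ.dual.twist χ) = s56gw_dual (s56eg_infl π ρ) :=
    s56ega_infl_dualTwist π χ hπ.cyc ρ
  have n1 : finrank (ZMod p) ↥(s56eg_infl π ρ).ρ.invariants ≤ 1 := by
    have h := Submodule.finrank_le (s56eg_infl π ρ).ρ.invariants
    have h1 : finrank (ZMod p) (s56eg_infl π ρ) = 1 := Module.finrank_self (ZMod p)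
    omega
  have n2 : finrank (ZMod p) ↥(s56gw_dual (s56eg_infl π ρ)).ρ.invariants = 0 := by
    rw [s56egb_noInv (s56eg_infl π ρ) hp2 htriv, finrank_bot]
  have hd : finrank (ZMod p) (Module.Dual (ZMod p) (ZMod p)) = 1 := by
    rw [Subspace.dual_finrank_eq, Module.finrank_self]
  have hM : finrank (ZMod p) (s56eg_infl π ρ) = 1 := Module.finrank_self (ZMod p)
  have hZ : finrank (ZMod p) (ZMod p) = 1 := Module.finrank_self (ZMod p)
  have g1 := congrArg (fun N : Rep.{0} (ZMod p) GQ => finrank (ZMod p) (continuousH1S S N)) hdual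
  have g2 := congrArg (fun N : Rep.{0} (ZMod p) GQ => finrank (ZMod p) (continuousH2S S N)) hdual
  have g3 := congrArg (fun N : Rep.{0} (ZMod p) GQ => finrank (ZMod p) N.ρ.invariants) hdual
  have g4 := congrArg (fun N : Rep.{0} (ZMod p) GQ =>
    finrank (ZMod p) (s56gw_resInf N).ρ.invariants) hdual
  beta_reduce at g1 g2 g3 g4
  unfold s56eg_f
  omega

end Fermat.Agent.S56
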