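import Fermat.Agent.S56.GW.Dual.D6.Local
import Fermat.Agent.S56.GW.Dual.D6.Core
import Fermat.Agent.S56.GW.Dual.Inv.Seam
import Fermat.Agent.S55.FinGrp.H2Torsion

/-!
# S56, node [GW-EC], cell [EC-GB], part (B⁺), step 1: the sum formula for `E_S` (prefix `s56egb_`)

`s56egb_recip`: for a `p`-torsion class `w ∈ H²(G_S, E_S)` (level cohomology, `E_S = dm_ES S` the
`S`-units of the maximal extension unramified outside `S ∋ p`), the sum over `q ∈ S` of the limit
local invariants `s56gdi_inv p q` of the localisations of `w` vanishes.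

Route: `w` is inflated from a Galois level `b` (`lvH2_exists_level`), its `p`-primary component
`z ∈ H²(Γ_b, E(b))` still inflates to `w`, localisation after inflation is inflation after
finite-level localisation (`LvQuot.loc_H2`), the limit invariant of an inflated class is the
invariant of the local `p`-class module of the level (`s56gdi_inv_infl`), and the finite-level
sum formula `s56gdc_core` applies to `ψ_q = ε_q : E(b) ⟶ J_q(b)` whose sum into `C(b)` is zero
(`ε_exact`).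
-/

set_option autoImplicit false
set_option linter.unusedSectionVars false

open CategoryTheory groupCohomology ExtCitation

namespace Fermat.Agent.S56

open Fermat.Agent.S55

local notation "Qbar" => AlgebraicClosure ℚ
local notation "GQ" => (AlgebraicClosure ℚ ≃ₐ[ℚ] AlgebraicClosure ℚ)

noncomputable section

variable {p : ℕ} [Fact p.Prime] (hp2 : p ≠ 2) (S : Finset Nat.Primes) (hpS : pPrime p ∈ S)

/-- The localisation morphism `(G_S, E_S) → (G_q, (ℚ̄_q)ˣ)`. -/
def s56egb_mES (q : Nat.Primes) :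
    LvMor (tl_levelsS S) (dm_ES S) (tl_levelsLoc q) (tl_locUnits q) where
  f := primeLocalToGlobal q
  φ := dm_ESloc S q
  equivariant := fun τ x => dm_ESloc_smul S q τ x
  levels := fun U hU => ⟨U.comap (primeLocalToGlobal q), ⟨U, tl_levelsS_le_levelsAll hU, rfl⟩,
    le_rfl⟩

/-- The finite quotient `Γ_b` of `G_ℚ` for the module `E_S`: the `S`-units of the level `b`. -/
def s56egb_QE (b : du_Lev S) :
    LvQuot (tl_levelsS S) (dm_ES S) b.Γ (tl_Act ((s56gd_seam hp2 S hpS).E b)) :=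
  tl_sf_quot S b.L b.unr (dm_ql_incl (s56gd_seam hp2 S hpS) b)
    (dm_ql_incl_injective (s56gd_seam hp2 S hpS) b)
    (fun σ e => dm_ql_incl_smul (s56gd_seam hp2 S hpS) b σ e)
    (dm_ql_incl_range (s56gd_seam hp2 S hpS) b)

theorem s56egb_QE_ker (b : du_Lev S) : (s56egb_QE hp2 S hpS b).q.ker = b.L.fixingSubgroup :=
  b.ker_q

/-- `ψ_q = pr_q ∘ res ε_q : E(b) → X_q(b)` over `D_q(b)`. -/
abbrev s56egb_psi (b : du_Lev S) (q : ↥S) :
    tt_res (((s56gd_seam hp2 S hpS).dat b).D q) ((s56gd_seam hp2 S hpS).E b) ⟶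
      ((s56gd_seam hp2 S hpS).dat b).Xq q :=
  (Rep.resFunctor (((s56gd_seam hp2 S hpS).dat b).D q).subtype).map
    ((s56gd_seam hp2 S hpS).ε b q) ≫ ((s56gd_seam hp2 S hpS).dat b).pr q

/-- The sum of the `ε_q` into `C(b)` vanishes. -/
theorem s56egb_sum_eps (b : du_Lev S) :
    ∑ q : ↥S, (s56gd_seam hp2 S hpS).ε b q ≫ ((s56gd_seam hp2 S hpS).dat b).j q =
      (0 : (s56gd_seam hp2 S hpS).E b ⟶ (s56gd_seam hp2 S hpS).E b) ≫
        (0 : (s56gd_seam hp2 S hpS).E b ⟶ ((s56gd_seam hp2 S hpS).dat b).C) := by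
  rw [Limits.zero_comp]
  refine Rep.hom_ext (DFunLike.ext _ _ fun e => ?_)
  rw [xd_sum_hom]
  exact ((s56gd_seam hp2 S hpS).ε_exact b (fun q => ((s56gd_seam hp2 S hpS).ε b q).hom e)).2
    ⟨e, fun _ => rfl⟩

/-- Finite-level localisation `E(b) → X_q(b)` over `D_q(b) ≤ Γ_b`. -/
def s56egb_rho (b : du_Lev S) (q : ↥S) :
    LvMor (LevelSys.trivial b.Γ) (tl_Act ((s56gd_seam hp2 S hpS).E b))
      (LevelSys.trivial ↥(((s56gd_seam hp2 S hpS).dat b).D q))
      (tl_Act (((s56gd_seam hp2 S hpS).dat b).Xq q)) :=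
  s56gdc_mSub (((s56gd_seam hp2 S hpS).dat b).D q) (s56egb_psi hp2 S hpS b q)

/-- **The local term**: the limit invariant of the localisation of a class inflated from the
level `b` is the invariant of the local `p`-class module of `b`. -/
theorem s56egb_term (b : du_Lev S) (q : ↥S)
    (y : lvH2 (LevelSys.trivial b.Γ) (tl_Act ((s56gd_seam hp2 S hpS).E b)))
    (hy : tt_IsPPrimary p (s56gdc_H2e ((s56gd_seam hp2 S hpS).E b) y)) :
    s56gdi_inv p q.1 ((s56egb_mES S q.1).H2 ((s56egb_QE hp2 S hpS b).mor.H2 y)) =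
      (((s56gd_seam hp2 S hpS).dat b).Pq q).invTop
        ((tt_coeffMap (s56egb_psi hp2 S hpS b q) 2).hom
          ((tt_resMap (((s56gd_seam hp2 S hpS).dat b).D q) ((s56gd_seam hp2 S hpS).E b) 2).hom
            (s56gdc_H2e ((s56gd_seam hp2 S hpS).E b) y))) := by
  have h1 := LvQuot.loc_H2 (s56egb_mES S q.1) (s56egb_QE hp2 S hpS b)
    (s56gd_QX q.1 (s56gd_Fld.ofLev b)) (s56egb_rho hp2 S hpS b q) (fun _ => rfl)
    (fun e => dm_ql_ESloc_incl (s56gd_seam hp2 S hpS) q e) y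
  have e2 := s56gdc_H2e_sub (((s56gd_seam hp2 S hpS).dat b).D q)
    (A := (s56gd_seam hp2 S hpS).E b) (X := ((s56gd_seam hp2 S hpS).dat b).Xq q)
    (s56egb_psi hp2 S hpS b q) (s56egb_rho hp2 S hpS b q) (fun _ => rfl) (fun _ => rfl) y
  have hwp : tt_IsPPrimary p (s56gdc_H2e (il_Xq q.1 b.L) ((s56egb_rho hp2 S hpS b q).H2 y)) := by
    refine Eq.mpr (congrArg (tt_IsPPrimary p) e2) ?_
    exact tt_isPPrimary_map (tt_coeffMap (s56egb_psi hp2 S hpS b q) 2).hom.toAddMonoidHom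
      (tt_isPPrimary_map
        (tt_resMap (((s56gd_seam hp2 S hpS).dat b).D q)
          ((s56gd_seam hp2 S hpS).E b) 2).hom.toAddMonoidHom hy)
  have hw : s56gdi_infl q.1 (s56gd_Fld.ofLev b)
      (s56gdc_H2e (il_Xq q.1 b.L) ((s56egb_rho hp2 S hpS b q).H2 y)) =
      (s56gd_QX q.1 (s56gd_Fld.ofLev b)).mor.H2 ((s56egb_rho hp2 S hpS b q).H2 y) :=
    congrArg (s56gd_QX q.1 (s56gd_Fld.ofLev b)).mor.H2
      ((s56gdc_H2e (il_Xq q.1 b.L)).symm_apply_apply ((s56egb_rho hp2 S hpS b q).H2 y))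
  refine (congrArg (s56gdi_inv p q.1) h1).trans ?_
  refine (congrArg (s56gdi_inv p q.1) hw.symm).trans ?_
  refine (s56gdi_inv_infl p q.1 (s56gd_Fld.ofLev b) _ hwp).trans ?_
  exact congrArg (id_levPq p b q.1).invTop e2

/-- **The sum formula at a finite level.** -/
theorem s56egb_recip_level (b : du_Lev S)
    (y : lvH2 (LevelSys.trivial b.Γ) (tl_Act ((s56gd_seam hp2 S hpS).E b)))
    (hy : tt_IsPPrimary p (s56gdc_H2e ((s56gd_seam hp2 S hpS).E b) y)) :
    ∑ q : ↥S, s56gdi_inv p q.1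
      ((s56egb_mES S q.1).H2 ((s56egb_QE hp2 S hpS b).mor.H2 y)) = 0 := by
  simp_rw [s56egb_term hp2 S hpS b _ y hy]
  exact s56gdc_core ((s56gd_seam hp2 S hpS).dat b) Finset.univ
    (0 : (s56gd_seam hp2 S hpS).E b ⟶ (s56gd_seam hp2 S hpS).E b)
    (fun q => (s56gd_seam hp2 S hpS).ε b q)
    (0 : (s56gd_seam hp2 S hpS).E b ⟶ ((s56gd_seam hp2 S hpS).dat b).C)
    (s56egb_sum_eps hp2 S hpS b) (s56gdc_H2e ((s56gd_seam hp2 S hpS).E b) y) hy
    (by rw [ld_coeffMap_zero]; rfl)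

include hp2 hpS in
/-- **The sum formula for `E_S`**: the local invariants of a `p`-torsion class of `H²(G_S, E_S)`
sum to zero. -/
theorem s56egb_recip (w : lvH2 (tl_levelsS S) (dm_ES S)) (hw : p • w = 0) :
    ∑ q : ↥S, s56gdi_inv p q.1 ((s56egb_mES S q.1).H2 w) = 0 := by
  classical
  have hp : p.Prime := Fact.out
  obtain ⟨a₁⟩ := (inferInstance : Nonempty (du_Lev S))
  obtain ⟨W, hW, -, -, hWw⟩ :=
    lvH2_exists_level (dm_isSmooth_ES S) w a₁.fixingSubgroup_mem_levels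
  obtain ⟨b, -, hb⟩ := dm_ql_exists_ge a₁ hW
  have hker : (s56egb_QE hp2 S hpS b).q.ker ≤ W := by
    rw [s56egb_QE_ker]
    exact hb
  obtain ⟨y, hy⟩ := hWw (s56egb_QE hp2 S hpS b) hker
  -- the `p`-primary component of `y`
  set N := Nat.card b.Γ with hN
  have hN0 : N ≠ 0 := Nat.card_pos.ne'
  set m := ordCompl[p] N with hm
  have hcop : Nat.Coprime p m := Nat.coprime_ordCompl hp hN0
  obtain ⟨v, -, hv⟩ := Nat.exists_mul_mod_eq_one_of_coprime hcop.symm hp.one_lt
  obtain ⟨k, hk⟩ : ∃ k : ℕ, m * v = 1 + p * k := by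
    refine ⟨m * v / p, ?_⟩
    have := Nat.div_add_mod (m * v) p
    rw [hv] at this
    omega
  have hinfl : (s56egb_QE hp2 S hpS b).mor.H2 ((m * v) • y) = w := by
    rw [map_nsmul, hy, hk, add_smul, one_smul, mul_comm p k, mul_smul, hw, smul_zero, add_zero]
  have hyp : tt_IsPPrimary p (s56gdc_H2e ((s56gd_seam hp2 S hpS).E b) ((m * v) • y)) := by
    refine ⟨N.factorization p, ?_⟩
    have h1 : (p ^ N.factorization p) • s56gdc_H2e ((s56gd_seam hp2 S hpS).E b) ((m * v) • y) =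
        v • (N • (s56gdc_H2e ((s56gd_seam hp2 S hpS).E b) y)) := by
      rw [map_nsmul, ← mul_smul, ← mul_smul]
      congr 1
      have := Nat.ordProj_mul_ordCompl_eq_self N p
      rw [← hm] at this
      calc p ^ N.factorization p * (m * v) = (p ^ N.factorization p * m) * v := by ring
        _ = N * v := by rw [this]
        _ = v * N := by ring
    rw [h1, hN, h2_card_smul_eq_zero, smul_zero]
  rw [← hinfl]
  exact s56egb_recip_level hp2 S hpS b _ hyp

end

end Fermat.Agent.S56
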